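/-
Helper library (helper2): `q`-expansion coefficients of cusp forms on `Gamma0 N` as linear
functionals, the `q`-expansion principle (via the Sturm bound of the prelude), finite
dimensionality, and the action of the Hecke operators on coefficients.
-/
import Mathlib
import Fermat.Prelude.Def_FLTPrelim_Modularity
import Fermat.Prelude.Def_ModularForm_HeckeOperatorForms
import Fermat.Prelude.Thm_ModularForm_sturm_bound_Gamma0
import Fermat.Prelude.Thm_CongruenceSubgroup_one_mem_strictPeriods_Gamma0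
import Fermat.Prelude.Thm_ModularFormClass_qCoeff_heckeT
import Fermat.Prelude.Thm_ModularFormClass_qCoeff_heckeU
import Fermat.Agent.Lib.Level.SmallLevel

set_option autoImplicit false

open ModularFormClass UpperHalfPlane ModularForm
open scoped MatrixGroups

namespace Fermat.Agent.Lib.QCoeff

variable {N : ℕ} {k : ℤ}

local notation "Γ₀(" N ")" => CongruenceSubgroup.Gamma0 N

theorem one_mem_strictPeriods (N : ℕ) :
    (1 : ℝ) ∈ (Subgroup.map (Matrix.SpecialLinearGroup.mapGL ℝ) Γ₀(N)).strictPeriods :=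
  CongruenceSubgroup.one_mem_strictPeriods_Gamma0 N

theorem qCoeff_add (f g : CuspForm Γ₀(N) k) (n : ℕ) :
    qCoeff ⇑(f + g) n = qCoeff ⇑f n + qCoeff ⇑g n := by
  simp only [qCoeff, FunLike.coe_add]
  rw [ModularForm.qExpansion_add one_pos (one_mem_strictPeriods N) f g, map_add]

theorem qCoeff_smul (c : ℂ) (f : CuspForm Γ₀(N) k) (n : ℕ) :
    qCoeff ⇑(c • f) n = c * qCoeff ⇑f n := by
  have h1 : ⇑(c • f) = c • ⇑f := by
    ext z
    simp
  simp only [qCoeff, h1]
  rw [ModularForm.qExpansion_smul one_pos (one_mem_strictPeriods N) c f]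
  simp

/-- The `n`-th `q`-expansion coefficient as a linear functional. -/
noncomputable def qCoeffLin (N : ℕ) (k : ℤ) (n : ℕ) : CuspForm Γ₀(N) k →ₗ[ℂ] ℂ where
  toFun f := qCoeff ⇑f n
  map_add' f g := qCoeff_add f g n
  map_smul' c f := by
    simp only [RingHom.id_apply, smul_eq_mul]
    exact qCoeff_smul c f n

@[simp] theorem qCoeffLin_apply (f : CuspForm Γ₀(N) k) (n : ℕ) :
    qCoeffLin N k n f = qCoeff ⇑f n := rfl

theorem qCoeff_zero_form (n : ℕ) : qCoeff ⇑(0 : CuspForm Γ₀(N) k) n = 0 :=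
  (qCoeffLin N k n).map_zero

theorem qCoeff_neg (f : CuspForm Γ₀(N) k) (n : ℕ) : qCoeff ⇑(-f) n = -qCoeff ⇑f n :=
  (qCoeffLin N k n).map_neg f

theorem qCoeff_sub (f g : CuspForm Γ₀(N) k) (n : ℕ) :
    qCoeff ⇑(f - g) n = qCoeff ⇑f n - qCoeff ⇑g n :=
  (qCoeffLin N k n).map_sub f g

theorem qCoeff_zsmul (c : ℤ) (f : CuspForm Γ₀(N) k) (n : ℕ) :
    qCoeff ⇑(c • f) n = c * qCoeff ⇑f n := by
  have : c • f = (c : ℂ) • f := by
    rw [Int.cast_smul_eq_zsmul]
  rw [this, qCoeff_smul]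

/-- The constant coefficient of a cusp form vanishes. -/
theorem qCoeff_zero (f : CuspForm Γ₀(N) k) : qCoeff ⇑f 0 = 0 :=
  CuspFormClass.qExpansion_coeff_zero f one_pos (one_mem_strictPeriods N)

/-- A cusp form all of whose coefficients of positive index vanish is zero. -/
theorem eq_zero_of_qCoeff [NeZero N] (f : CuspForm Γ₀(N) k)
    (h : ∀ n : ℕ, 1 ≤ n → qCoeff ⇑f n = 0) : f = 0 :=
  Fermat.Agent.Lib.Level.cuspForm_eq_zero_of_qCoeff_eq_zero f fun n h1 _ ↦ h n h1

/-- The `q`-expansion principle. -/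
theorem ext_of_qCoeff [NeZero N] {f g : CuspForm Γ₀(N) k}
    (h : ∀ n : ℕ, 1 ≤ n → qCoeff ⇑f n = qCoeff ⇑g n) : f = g := by
  rw [← sub_eq_zero]
  refine eq_zero_of_qCoeff _ fun n hn ↦ ?_
  rw [qCoeff_sub, h n hn, sub_self]

/-- Truncated `q`-expansion, injective by the Sturm bound. -/
noncomputable def truncLin (N : ℕ) (k : ℤ) (B : ℕ) :
    CuspForm Γ₀(N) k →ₗ[ℂ] (Fin (B + 1) → ℂ) :=
  LinearMap.pi fun i ↦ qCoeffLin N k i

theorem truncLin_injective [NeZero N] :
    Function.Injective (truncLin N k ((k * (Γ₀(N)).index).toNat / 12)) := by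
  refine (injective_iff_map_eq_zero _).mpr fun f hf ↦ ?_
  refine Fermat.Agent.Lib.Level.cuspForm_eq_zero_of_qCoeff_eq_zero f fun n _ hn ↦ ?_
  have := congrFun hf ⟨n, Nat.lt_succ_of_le hn⟩
  simpa [truncLin] using this

/-- Spaces of cusp forms on `Gamma0 N` are finite dimensional. -/
theorem finiteDimensional [NeZero N] : FiniteDimensional ℂ (CuspForm Γ₀(N) k) :=
  FiniteDimensional.of_injective _ (truncLin_injective (N := N) (k := k))

/-- Coefficients of `T_p f`. -/
theorem qCoeff_heckeTLin {p : ℕ} (hp : p.Prime) (hpN : ¬ p ∣ N) (f : CuspForm Γ₀(N) k) (n : ℕ) :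
    qCoeff ⇑(CuspForm.heckeTLin k hp hpN f) n =
      qCoeff ⇑f (n * p) + if p ∣ n then (p : ℂ) ^ (k - 1) * qCoeff ⇑f (n / p) else 0 := by
  rw [CuspForm.coe_heckeTLin_apply, ModularFormClass.qCoeff_heckeT f (one_mem_strictPeriods N)
    hp.ne_zero n]
  rfl

/-- Coefficients of `U_p f`. -/
theorem qCoeff_heckeULin [NeZero N] {p : ℕ} (hp : p.Prime) (hpN : p ∣ N) (f : CuspForm Γ₀(N) k)
    (n : ℕ) :
    qCoeff ⇑(CuspForm.heckeULin k hpN f) n = qCoeff ⇑f (n * p) := by
  rw [CuspForm.coe_heckeULin_apply, ModularFormClass.qCoeff_heckeU f (one_mem_strictPeriods N)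
    hp.ne_zero n]
  rfl

end Fermat.Agent.Lib.QCoeff
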