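/-
Helper library (helper2): common eigenvectors of a commutative ring acting on a finite dimensional
vector space over an algebraically closed field, with control of the kernel of the eigencharacter
(the linear algebra heart of the Deligne–Serre lifting lemma).
-/
import Mathlib

set_option autoImplicit false

namespace Fermat.Agent.Lib.CommEigen

open Module

universe u v w

section

variable {K : Type u} [Field K] [IsAlgClosed K]
variable {A : Type w} [CommRing A]

/-- Restriction of a representation of a commutative ring to an invariant subspace. -/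
noncomputable def restrictHom {V : Type v} [AddCommGroup V] [Module K V]
    (ρ : A →+* Module.End K V) (W : Submodule K V)
    (hW : ∀ (a : A) (w : V), w ∈ W → ρ a w ∈ W) : A →+* Module.End K W where
  toFun a := (ρ a).restrict (hW a)
  map_one' := by
    ext w
    simp
  map_mul' a b := by
    ext w
    simp [LinearMap.restrict_apply]
  map_zero' := by
    ext w
    simp
  map_add' a b := by
    ext w
    simp [LinearMap.restrict_apply]

omit [IsAlgClosed K] in
@[simp] theorem restrictHom_apply_coe {V : Type v} [AddCommGroup V] [Module K V]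
    (ρ : A →+* Module.End K V) (W : Submodule K V)
    (hW : ∀ (a : A) (w : V), w ∈ W → ρ a w ∈ W) (a : A) (w : W) :
    ((restrictHom ρ W hW a w : W) : V) = ρ a (w : V) := rfl

/-- A commutative ring acting on a nonzero finite dimensional vector space over an algebraically
closed field has a common eigenvector. -/
theorem exists_common_eigenvector_aux (n : ℕ) :
    ∀ (V : Type v) [AddCommGroup V] [Module K V] [FiniteDimensional K V] [Nontrivial V]
      (ρ : A →+* Module.End K V), finrank K V = n →
      ∃ v : V, v ≠ 0 ∧ ∀ a : A, ∃ c : K, ρ a v = c • v := by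
  induction n using Nat.strong_induction_on with
  | _ n ih =>
    intro V _ _ _ _ ρ hn
    by_cases hsc : ∀ a : A, ∃ c : K, ρ a = c • (1 : Module.End K V)
    · obtain ⟨v, hv⟩ := exists_ne (0 : V)
      refine ⟨v, hv, fun a ↦ ?_⟩
      obtain ⟨c, hc⟩ := hsc a
      exact ⟨c, by rw [hc]; simp⟩
    · push Not at hsc
      obtain ⟨a₀, ha₀⟩ := hsc
      obtain ⟨μ, hμ⟩ := Module.End.exists_eigenvalue (ρ a₀)
      set E : Submodule K V := Module.End.eigenspace (ρ a₀) μ with hE
      have hEne : E ≠ ⊥ := hμ
      have hEtop : E ≠ ⊤ := by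
        intro htop
        apply ha₀ μ
        ext v
        have : v ∈ E := by rw [htop]; trivial
        rw [hE, Module.End.mem_eigenspace_iff] at this
        simpa using this
      have hinv : ∀ (a : A) (w : V), w ∈ E → ρ a w ∈ E := by
        intro a w hw
        rw [hE, Module.End.mem_eigenspace_iff] at hw ⊢
        have hcomm : ρ a₀ (ρ a w) = ρ a (ρ a₀ w) := by
          have : ρ a₀ * ρ a = ρ a * ρ a₀ := by rw [← map_mul, ← map_mul, mul_comm]
          exact congrArg (fun f : Module.End K V ↦ f w) this
        rw [hcomm, hw, map_smul]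
      have hlt : finrank K E < n := by
        rw [← hn]
        exact Submodule.finrank_lt hEtop
      have : Nontrivial E := Submodule.nontrivial_iff_ne_bot.mpr hEne
      obtain ⟨w, hw0, hw⟩ := ih (finrank K E) hlt E (restrictHom ρ E hinv) rfl
      refine ⟨(w : V), fun h ↦ hw0 (Subtype.ext h), fun a ↦ ?_⟩
      obtain ⟨c, hc⟩ := hw a
      refine ⟨c, ?_⟩
      have := congrArg (fun x : E ↦ (x : V)) hc
      simpa using this

theorem exists_common_eigenvector {V : Type v} [AddCommGroup V] [Module K V]
    [FiniteDimensional K V] [Nontrivial V] (ρ : A →+* Module.End K V) :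
    ∃ v : V, v ≠ 0 ∧ ∀ a : A, ∃ c : K, ρ a v = c • v :=
  exists_common_eigenvector_aux (finrank K V) V ρ rfl

omit [IsAlgClosed K] in
/-- The eigencharacter of a common eigenvector is a ring homomorphism. -/
theorem exists_eigencharacter {V : Type v} [AddCommGroup V] [Module K V]
    (ρ : A →+* Module.End K V) (v : V) (hv : v ≠ 0) (h : ∀ a : A, ∃ c : K, ρ a v = c • v) :
    ∃ ψ : A →+* K, ∀ a : A, ρ a v = ψ a • v := by
  classical
  choose c hc using h
  have huniq : ∀ {x y : K}, x • v = y • v → x = y := fun {x y} hxy ↦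
    smul_left_injective K hv hxy
  refine ⟨{ toFun := c, map_one' := ?_, map_mul' := ?_, map_zero' := ?_, map_add' := ?_ }, hc⟩
  · apply huniq
    rw [← hc, map_one, one_smul]
    simp
  · intro a b
    apply huniq
    rw [← hc, map_mul, Module.End.mul_apply, hc b, map_smul, hc a, smul_smul, mul_comm]
  · apply huniq
    rw [← hc, map_zero, zero_smul]
    simp
  · intro a b
    apply huniq
    rw [← hc, map_add, LinearMap.add_apply, hc a, hc b, add_smul]

/-- Key lemma: if a commutative ring `A` acts on a finite dimensional vector space `V` over an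
algebraically closed field and `𝔫` is a prime ideal of `A` containing the kernel of the action,
then there is a common eigenvector whose eigencharacter has kernel contained in `𝔫`. -/
theorem exists_eigencharacter_ker_le_aux (n : ℕ) :
    ∀ (V : Type v) [AddCommGroup V] [Module K V] [FiniteDimensional K V]
      (ρ : A →+* Module.End K V) (𝔫 : Ideal A), 𝔫.IsPrime → RingHom.ker ρ ≤ 𝔫 →
      finrank K V = n →
      ∃ (ψ : A →+* K) (v : V), v ≠ 0 ∧ (∀ a : A, ρ a v = ψ a • v) ∧ RingHom.ker ψ ≤ 𝔫 := by
  induction n using Nat.strong_induction_on with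
  | _ n ih =>
    intro V _ _ _ ρ 𝔫 h𝔫 hker hn
    have : Nontrivial V := by
      by_contra hnt
      rw [not_nontrivial_iff_subsingleton] at hnt
      apply h𝔫.ne_top
      rw [Ideal.eq_top_iff_one]
      apply hker
      rw [RingHom.mem_ker]
      exact Subsingleton.elim _ _
    obtain ⟨v₀, hv₀, hv₀'⟩ := exists_common_eigenvector ρ
    obtain ⟨ψ₀, hψ₀⟩ := exists_eigencharacter ρ v₀ hv₀ hv₀'
    by_cases hle : RingHom.ker ψ₀ ≤ 𝔫
    · exact ⟨ψ₀, v₀, hv₀, hψ₀, hle⟩
    · obtain ⟨a₀, ha₀, ha₀'⟩ := SetLike.not_le_iff_exists.mp hle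
      rw [RingHom.mem_ker] at ha₀
      set W : Submodule K V := LinearMap.range (ρ a₀) with hW
      have hinv : ∀ (a : A) (w : V), w ∈ W → ρ a w ∈ W := by
        rintro a w ⟨x, rfl⟩
        refine ⟨ρ a x, ?_⟩
        have : ρ a₀ * ρ a = ρ a * ρ a₀ := by rw [← map_mul, ← map_mul, mul_comm]
        exact congrArg (fun f : Module.End K V ↦ f x) this
      have hlt : finrank K W < n := by
        rw [← hn, ← LinearMap.finrank_range_add_finrank_ker (ρ a₀), hW]
        have hkerne : LinearMap.ker (ρ a₀) ≠ ⊥ := by
          intro hbot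
          have : v₀ ∈ LinearMap.ker (ρ a₀) := by
            rw [LinearMap.mem_ker, hψ₀, ha₀, zero_smul]
          rw [hbot] at this
          exact hv₀ ((Submodule.mem_bot K).mp this)
        have : 0 < finrank K (LinearMap.ker (ρ a₀)) := by
          rw [Module.finrank_pos_iff]
          exact Submodule.nontrivial_iff_ne_bot.mpr hkerne
        omega
      have hker' : RingHom.ker (restrictHom ρ W hinv) ≤ 𝔫 := by
        intro a ha
        rw [RingHom.mem_ker] at ha
        have hmul : a * a₀ ∈ RingHom.ker ρ := by
          rw [RingHom.mem_ker, map_mul]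
          ext x
          have hx : ρ a₀ x ∈ W := ⟨x, rfl⟩
          have := congrArg (fun f : Module.End K W ↦ ((f ⟨ρ a₀ x, hx⟩ : W) : V)) ha
          simpa using this
        rcases h𝔫.mem_or_mem (hker hmul) with h | h
        · exact h
        · exact absurd h ha₀'
      obtain ⟨ψ, w, hw0, hw, hψ⟩ :=
        ih (finrank K W) hlt W (restrictHom ρ W hinv) 𝔫 h𝔫 hker' rfl
      refine ⟨ψ, (w : V), fun h ↦ hw0 (Subtype.ext h), fun a ↦ ?_, hψ⟩
      have := congrArg (fun x : W ↦ (x : V)) (hw a)
      simpa using this

theorem exists_eigencharacter_ker_le {V : Type v} [AddCommGroup V] [Module K V]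
    [FiniteDimensional K V] (ρ : A →+* Module.End K V) (𝔫 : Ideal A) [h𝔫 : 𝔫.IsPrime]
    (hker : RingHom.ker ρ ≤ 𝔫) :
    ∃ (ψ : A →+* K) (v : V), v ≠ 0 ∧ (∀ a : A, ρ a v = ψ a • v) ∧ RingHom.ker ψ ≤ 𝔫 :=
  exists_eigencharacter_ker_le_aux (finrank K V) V ρ 𝔫 h𝔫 hker rfl

end

end Fermat.Agent.Lib.CommEigen
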