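/-
Helper library (helper2): formal Hecke eigensystems are recursive/multiplicative, and a sequence
satisfying the Hecke eigen-relations with vanishing first coefficient vanishes identically.
-/
import Mathlib
import Fermat.Prelude.Def_FormalHecke_Eigensystem

set_option autoImplicit false

namespace Fermat.Agent.Lib.FormalEigen

variable {R : Type*} [CommRing R]

/-- The Hecke eigen-relations (without normalisation). -/
def Rel (e lam a : ℕ → R) : Prop :=
  ∀ ℓ : ℕ, ℓ.Prime → ∀ n : ℕ,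
    a (ℓ * n) + e ℓ * (if ℓ ∣ n then a (n / ℓ) else 0) = lam ℓ * a n

/-- If the first coefficient vanishes, so do all coefficients of positive index. -/
theorem eq_zero_of_rel {e lam a : ℕ → R} (h : Rel e lam a) (h1 : a 1 = 0) :
    ∀ n : ℕ, 1 ≤ n → a n = 0 := by
  intro n
  induction n using Nat.strong_induction_on with
  | _ n ih =>
    intro hn
    rcases Nat.lt_or_ge 1 n with hlt | hle
    · obtain ⟨p, hp, hpn⟩ := Nat.exists_prime_and_dvd (show n ≠ 1 by omega)
      obtain ⟨m, rfl⟩ := hpn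
      have hm0 : 0 < m := Nat.pos_of_ne_zero (by rintro rfl; simp at hn)
      have hmlt : m < p * m := by
        have := hp.two_le
        nlinarith
      have hrel := h p hp m
      have ham : a m = 0 := ih m hmlt hm0
      by_cases hdvd : p ∣ m
      · have hdiv : a (m / p) = 0 := by
          apply ih
          · exact lt_of_le_of_lt (Nat.div_le_self m p) hmlt
          · exact Nat.div_pos (Nat.le_of_dvd hm0 hdvd) hp.pos
        rw [if_pos hdvd, hdiv, ham] at hrel
        simpa using hrel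
      · rw [if_neg hdvd, ham] at hrel
        simpa using hrel
    · have : n = 1 := by omega
      rw [this, h1]

/-- With `a 1 = 1`, the eigenvalue is the coefficient. -/
theorem lam_eq_of_rel {e lam a : ℕ → R} (h : Rel e lam a) (h1 : a 1 = 1) {ℓ : ℕ} (hℓ : ℓ.Prime) :
    lam ℓ = a ℓ := by
  have := h ℓ hℓ 1
  have hnd : ¬ ℓ ∣ 1 := by
    rw [Nat.dvd_one]
    exact hℓ.ne_one
  rw [if_neg hnd, h1] at this
  simpa using this.symm

theorem isEigensystem_of_rel {e lam a : ℕ → R} (h : Rel e lam a) (h1 : a 1 = 1) :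
    FormalHecke.IsEigensystem e a := by
  refine ⟨h1, fun ℓ hℓ n ↦ ?_⟩
  rw [h ℓ hℓ n, lam_eq_of_rel h h1 hℓ]

theorem prime_pow_succ_succ {e a : ℕ → R} (h : FormalHecke.IsEigensystem e a) {ℓ : ℕ}
    (hℓ : ℓ.Prime) (r : ℕ) :
    a (ℓ ^ (r + 2)) = a ℓ * a (ℓ ^ (r + 1)) - e ℓ * a (ℓ ^ r) := by
  have := h.2 ℓ hℓ (ℓ ^ (r + 1))
  have hdvd : ℓ ∣ ℓ ^ (r + 1) := dvd_pow_self ℓ (by omega)
  rw [if_pos hdvd] at this
  have hdiv : ℓ ^ (r + 1) / ℓ = ℓ ^ r := by
    rw [pow_succ, Nat.mul_div_cancel _ hℓ.pos]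
  rw [hdiv] at this
  have hpow : ℓ * ℓ ^ (r + 1) = ℓ ^ (r + 2) := by ring
  rw [hpow] at this
  rw [← this]
  ring

theorem prime_pow_mul {e a : ℕ → R} (h : FormalHecke.IsEigensystem e a) {ℓ : ℕ}
    (hℓ : ℓ.Prime) (r : ℕ) : ∀ n : ℕ, ¬ ℓ ∣ n → a (ℓ ^ r * n) = a (ℓ ^ r) * a n := by
  induction r using Nat.strong_induction_on with
  | _ r ih =>
    intro n hn
    match r, ih with
    | 0, _ => simp [h.1]
    | 1, _ =>
      have := h.2 ℓ hℓ n
      rw [if_neg hn] at this
      simpa using this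
    | r + 2, ih =>
      have h1 := h.2 ℓ hℓ (ℓ ^ (r + 1) * n)
      have hdvd : ℓ ∣ ℓ ^ (r + 1) * n := Dvd.dvd.mul_right (dvd_pow_self ℓ (by omega)) n
      rw [if_pos hdvd] at h1
      have hdiv : ℓ ^ (r + 1) * n / ℓ = ℓ ^ r * n := by
        rw [pow_succ, mul_assoc, mul_comm ℓ n, ← mul_assoc, Nat.mul_div_cancel _ hℓ.pos]
      rw [hdiv] at h1
      have hpow : ℓ * (ℓ ^ (r + 1) * n) = ℓ ^ (r + 2) * n := by ring
      rw [hpow, ih (r + 1) (by omega) n hn, ih r (by omega) n hn] at h1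
      rw [prime_pow_succ_succ h hℓ r]
      linear_combination h1

theorem mul_of_coprime {e a : ℕ → R} (h : FormalHecke.IsEigensystem e a) :
    ∀ m n : ℕ, m.Coprime n → a (m * n) = a m * a n := by
  intro m
  induction m using Nat.recOnPosPrimePosCoprime with
  | prime_pow p r hp hr =>
    intro n hn
    apply prime_pow_mul h hp r n
    intro hdvd
    have : p ∣ Nat.gcd (p ^ r) n := Nat.dvd_gcd (dvd_pow_self p (by omega)) hdvd
    rw [Nat.Coprime] at hn
    rw [hn, Nat.dvd_one] at this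
    exact hp.ne_one this
  | zero =>
    intro n hn
    rw [Nat.coprime_zero_left] at hn
    subst hn
    simp [h.1]
  | one =>
    intro n _
    simp [h.1]
  | coprime m₁ m₂ _ _ hcop ih₁ ih₂ =>
    intro n hn
    have hn₁ : m₁.Coprime n := Nat.Coprime.coprime_mul_right hn
    have hn₂ : m₂.Coprime n := Nat.Coprime.coprime_mul_left hn
    rw [mul_assoc, ih₁ (m₂ * n) (Nat.Coprime.mul_right hcop hn₁), ih₂ n hn₂, ih₁ m₂ hcop, mul_assoc]

/-- A formal Hecke eigensystem is recursive. -/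
theorem isRecursive_of_isEigensystem {e a : ℕ → R} (h : FormalHecke.IsEigensystem e a) :
    FormalHecke.IsRecursive e a :=
  ⟨h.1, mul_of_coprime h, fun _ r hℓ ↦ prime_pow_succ_succ h hℓ r⟩

end Fermat.Agent.Lib.FormalEigen
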