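/-
Helper library (helper2): a nonzero common eigenvector of all `T_p` (`p ∤ N`) and `U_p` (`p ∣ N`)
in weight 2 can be normalised to a `CuspForm.IsNormalizedEigenform`.
-/
import Mathlib
import Fermat.Agent.Lib.Hecke.QCoeff
import Fermat.Agent.Lib.Hecke.FormalEigen

set_option autoImplicit false

open ModularFormClass UpperHalfPlane ModularForm
open scoped MatrixGroups

namespace Fermat.Agent.Lib.Eigenform

open Fermat.Agent.Lib.QCoeff Fermat.Agent.Lib.FormalEigen

variable {N : ℕ}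

local notation "Γ₀(" N ")" => CongruenceSubgroup.Gamma0 N

/-- The weight two "character" `p ↦ p` away from the level, `0` at the level. -/
noncomputable def eps (N : ℕ) (p : ℕ) : ℂ := if p ∣ N then 0 else (p : ℂ)

/-- An eigenvector of all Hecke operators at primes. -/
structure IsEigenvector [NeZero N] (g : CuspForm Γ₀(N) 2) (lam : ℕ → ℂ) : Prop where
  heckeT : ∀ (p : ℕ) (hp : p.Prime) (hpN : ¬ p ∣ N), CuspForm.heckeTLin 2 hp hpN g = lam p • g
  heckeU : ∀ (p : ℕ) (_ : p.Prime) (hpN : p ∣ N), CuspForm.heckeULin 2 hpN g = lam p • g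

theorem rel_of_isEigenvector [NeZero N] {g : CuspForm Γ₀(N) 2} {lam : ℕ → ℂ}
    (h : IsEigenvector g lam) : Rel (eps N) lam (fun n ↦ qCoeff ⇑g n) := by
  intro p hp n
  by_cases hpN : p ∣ N
  · have h1 := congrArg (fun f : CuspForm Γ₀(N) 2 ↦ qCoeff ⇑f n) (h.heckeU p hp hpN)
    simp only [qCoeff_heckeULin hp hpN, qCoeff_smul] at h1
    simp only [eps, if_pos hpN, zero_mul, add_zero]
    rw [mul_comm p n]
    exact h1
  · have h1 := congrArg (fun f : CuspForm Γ₀(N) 2 ↦ qCoeff ⇑f n) (h.heckeT p hp hpN)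
    simp only [qCoeff_heckeTLin hp hpN, qCoeff_smul] at h1
    simp only [eps, if_neg hpN]
    rw [mul_comm p n, ← h1]
    have : ((2 : ℤ) - 1) = 1 := by norm_num
    rw [this, zpow_one]
    split_ifs <;> simp

theorem qCoeff_one_ne_zero [NeZero N] {g : CuspForm Γ₀(N) 2} {lam : ℕ → ℂ}
    (h : IsEigenvector g lam) (hg : g ≠ 0) : qCoeff ⇑g 1 ≠ 0 := by
  intro h1
  apply hg
  exact eq_zero_of_qCoeff g (eq_zero_of_rel (rel_of_isEigenvector h) h1)

theorem IsEigenvector.smul [NeZero N] {g : CuspForm Γ₀(N) 2} {lam : ℕ → ℂ}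
    (h : IsEigenvector g lam) (c : ℂ) : IsEigenvector (c • g) lam where
  heckeT p hp hpN := by rw [map_smul, h.heckeT p hp hpN, smul_comm]
  heckeU p hp hpN := by rw [map_smul, h.heckeU p hp hpN, smul_comm]

/-- A normalised eigenvector is a normalised eigenform, and its eigenvalues are its coefficients. -/
theorem isNormalizedEigenform_of_isEigenvector [NeZero N] {g : CuspForm Γ₀(N) 2} {lam : ℕ → ℂ}
    (h : IsEigenvector g lam) (h1 : qCoeff ⇑g 1 = 1) :
    g.IsNormalizedEigenform ∧ ∀ p : ℕ, p.Prime → lam p = qCoeff ⇑g p := by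
  have hrel := rel_of_isEigenvector h
  have heig := isEigensystem_of_rel hrel h1
  have hrec := isRecursive_of_isEigensystem heig
  refine ⟨⟨h1, hrec.2.1, ?_, ?_⟩, fun p hp ↦ lam_eq_of_rel hrel h1 hp⟩
  · intro p r hp hpN
    have := hrec.2.2 p r hp
    simpa [eps, hpN] using this
  · intro p r hp hpN
    have := hrec.2.2 p r hp
    simpa [eps, hpN] using this

/-- Normalising a nonzero eigenvector. -/
theorem exists_normalized [NeZero N] {g : CuspForm Γ₀(N) 2} {lam : ℕ → ℂ}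
    (h : IsEigenvector g lam) (hg : g ≠ 0) :
    ∃ g' : CuspForm Γ₀(N) 2, g'.IsNormalizedEigenform ∧ IsEigenvector g' lam ∧
      ∀ p : ℕ, p.Prime → qCoeff ⇑g' p = lam p := by
  have h1 := qCoeff_one_ne_zero h hg
  refine ⟨(qCoeff ⇑g 1)⁻¹ • g, ?_⟩
  have h' := h.smul (qCoeff ⇑g 1)⁻¹
  have hone : qCoeff ⇑((qCoeff ⇑g 1)⁻¹ • g) 1 = 1 := by
    rw [qCoeff_smul, inv_mul_cancel₀ h1]
  obtain ⟨hn, hl⟩ := isNormalizedEigenform_of_isEigenvector h' hone
  exact ⟨hn, h', fun p hp ↦ (hl p hp).symm⟩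

end Fermat.Agent.Lib.Eigenform
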