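/-
Helper library (helper2): the integral lattice of cusp forms on `Gamma0 N`, its stability under the
Hecke algebra, and integrality of the Hecke algebra over `ℤ` when the lattice spans.
-/
import Mathlib
import Fermat.Prelude.Def_CuspForm_HeckeAlgebra
import Fermat.Prelude.Def_CuspForm_IntegralStructure
import Fermat.Prelude.Def_CuspForm_IntegralLattice
import Fermat.Prelude.Thm_CuspForm_intLattice_fg
import Fermat.Prelude.Thm_CuspForm_mem_intLattice_of_mem_heckeAlgebra
import Fermat.Agent.Lib.Hecke.QCoeff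

set_option autoImplicit false

open ModularFormClass UpperHalfPlane ModularForm
open scoped MatrixGroups

namespace Fermat.Agent.Lib.Lattice

open Fermat.Agent.Lib.QCoeff

variable {N : ℕ} {k : ℤ}

local notation "Γ₀(" N ")" => CongruenceSubgroup.Gamma0 N

/-- Forms all of whose coefficients are integers divisible by `r`. (`r = 1`: integral forms.) -/
def divLattice (N : ℕ) (k : ℤ) (r : ℤ) : Submodule ℤ (CuspForm Γ₀(N) k) where
  carrier := {f | ∀ n : ℕ, ∃ m : ℤ, qCoeff ⇑f n = ((r * m : ℤ) : ℂ)}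
  add_mem' {f g} hf hg n := by
    obtain ⟨a, ha⟩ := hf n
    obtain ⟨b, hb⟩ := hg n
    exact ⟨a + b, by rw [qCoeff_add, ha, hb]; push_cast; ring⟩
  zero_mem' n := ⟨0, by rw [qCoeff_zero_form]; simp⟩
  smul_mem' c {f} hf n := by
    obtain ⟨a, ha⟩ := hf n
    exact ⟨c * a, by rw [qCoeff_zsmul, ha]; push_cast; ring⟩

theorem mem_divLattice_iff (r : ℤ) (f : CuspForm Γ₀(N) k) :
    f ∈ divLattice N k r ↔ ∀ n : ℕ, ∃ m : ℤ, qCoeff ⇑f n = ((r * m : ℤ) : ℂ) := Iff.rfl

theorem intLattice_eq (N : ℕ) (k : ℤ) : CuspForm.intLattice N k = divLattice N k 1 := by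
  have : {f : CuspForm Γ₀(N) k | ∀ n : ℕ, ∃ m : ℤ, qCoeff ⇑f n = (m : ℂ)} =
      (divLattice N k 1 : Set (CuspForm Γ₀(N) k)) := by
    ext f
    simp [divLattice]
  rw [CuspForm.intLattice, this, Submodule.span_eq]

theorem mem_intLattice_iff (f : CuspForm Γ₀(N) k) :
    f ∈ CuspForm.intLattice N k ↔ ∀ n : ℕ, ∃ m : ℤ, qCoeff ⇑f n = (m : ℂ) := by
  rw [intLattice_eq, mem_divLattice_iff]
  simp

theorem qIntegralSet_eq (N : ℕ) :
    CuspForm.qIntegralSet N = (CuspForm.intLattice N 2 : Set (CuspForm Γ₀(N) 2)) := by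
  ext f
  rw [SetLike.mem_coe, mem_intLattice_iff]
  simp only [CuspForm.qIntegralSet, Set.mem_ofPred_eq, Subring.mem_bot]
  constructor
  · intro h n
    obtain ⟨m, hm⟩ := h n
    exact ⟨m, hm.symm⟩
  · intro h n
    obtain ⟨m, hm⟩ := h n
    exact ⟨m, hm.symm⟩

/-- A form in `r L` is `r` times a form in `L`. -/
theorem exists_eq_smul_of_mem_divLattice {r : ℤ} (hr : r ≠ 0) {f : CuspForm Γ₀(N) k}
    (hf : f ∈ divLattice N k r) : ∃ g ∈ CuspForm.intLattice N k, f = r • g := by
  have hr' : (r : ℂ) ≠ 0 := by exact_mod_cast hr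
  refine ⟨(r : ℂ)⁻¹ • f, ?_, ?_⟩
  · rw [mem_intLattice_iff]
    intro n
    obtain ⟨m, hm⟩ := hf n
    refine ⟨m, ?_⟩
    rw [qCoeff_smul, hm]
    push_cast
    field_simp
  · rw [← Int.cast_smul_eq_zsmul ℂ r, smul_smul, mul_inv_cancel₀ hr', one_smul]

theorem smul_mem_divLattice {r : ℤ} {g : CuspForm Γ₀(N) k} (hg : g ∈ CuspForm.intLattice N k) :
    r • g ∈ divLattice N k r := by
  rw [mem_intLattice_iff] at hg
  intro n
  obtain ⟨m, hm⟩ := hg n
  exact ⟨m, by rw [qCoeff_zsmul, hm]; push_cast; ring⟩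

theorem divLattice_le_intLattice (r : ℤ) : divLattice N k r ≤ CuspForm.intLattice N k := by
  intro f hf
  rw [mem_intLattice_iff]
  intro n
  obtain ⟨m, hm⟩ := hf n
  exact ⟨r * m, hm⟩

/-- The Hecke algebra preserves `r L`. -/
theorem apply_mem_divLattice [NeZero N] (hk : 1 ≤ k) {S : Set ℕ} {r : ℤ}
    {t : Module.End ℂ (CuspForm Γ₀(N) k)} (ht : t ∈ CuspForm.heckeAlgebra N k S)
    {f : CuspForm Γ₀(N) k} (hf : f ∈ divLattice N k r) : t f ∈ divLattice N k r := by
  rcases eq_or_ne r 0 with rfl | hr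
  · have : f = 0 := by
      refine eq_zero_of_qCoeff f fun n _ ↦ ?_
      obtain ⟨m, hm⟩ := hf n
      simpa using hm
    rw [this, map_zero]
    exact Submodule.zero_mem _
  · obtain ⟨g, hg, rfl⟩ := exists_eq_smul_of_mem_divLattice hr hf
    rw [map_zsmul]
    exact smul_mem_divLattice (CuspForm.mem_intLattice_of_mem_heckeAlgebra hk ht hg)

theorem isAddTorsionFree_cuspForm (N : ℕ) (k : ℤ) : IsAddTorsionFree (CuspForm Γ₀(N) k) := by
  have : Module ℚ (CuspForm Γ₀(N) k) := Module.compHom _ (algebraMap ℚ ℂ)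
  exact IsAddTorsionFree.of_module_rat _

theorem finite_intLattice (N : ℕ) [NeZero N] (k : ℤ) :
    Module.Finite ℤ (CuspForm.intLattice N k) :=
  Module.Finite.iff_fg.mpr (CuspForm.intLattice_fg N k)

theorem finite_end_intLattice (N : ℕ) [NeZero N] (k : ℤ) :
    Module.Finite ℤ (Module.End ℤ (CuspForm.intLattice N k)) := by
  have := finite_intLattice N k
  have := isAddTorsionFree_cuspForm N k
  infer_instance

/-- Restriction of the Hecke algebra to the integral lattice. -/
noncomputable def restrictEnd (N : ℕ) [NeZero N] {k : ℤ} (hk : 1 ≤ k) (S : Set ℕ) :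
    CuspForm.heckeAlgebra N k S →ₐ[ℤ] Module.End ℤ (CuspForm.intLattice N k) where
  toFun T := ((T : Module.End ℂ (CuspForm Γ₀(N) k)).restrictScalars ℤ).restrict
    (fun _ hf ↦ CuspForm.mem_intLattice_of_mem_heckeAlgebra hk T.2 hf)
  map_one' := by
    ext f
    simp
  map_mul' T T' := by
    ext f
    simp [LinearMap.restrict_apply]
  map_zero' := by
    ext f
    simp
  map_add' T T' := by
    ext f
    simp [LinearMap.restrict_apply]
  commutes' r := by
    ext f
    simp [LinearMap.restrict_apply]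

theorem restrictEnd_apply_coe [NeZero N] (hk : 1 ≤ k) (S : Set ℕ)
    (T : CuspForm.heckeAlgebra N k S) (f : CuspForm.intLattice N k) :
    ((restrictEnd N hk S T f : CuspForm.intLattice N k) : CuspForm Γ₀(N) k) =
      (T : Module.End ℂ (CuspForm Γ₀(N) k)) (f : CuspForm Γ₀(N) k) := rfl

/-- If the lattice spans, the restriction to the lattice is injective. -/
theorem restrictEnd_injective [NeZero N] (hk : 1 ≤ k) (S : Set ℕ)
    (hspan : Submodule.span ℂ (CuspForm.intLattice N k : Set (CuspForm Γ₀(N) k)) = ⊤) :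
    Function.Injective (restrictEnd N hk S) := by
  rw [injective_iff_map_eq_zero]
  intro T hT
  apply Subtype.ext
  have hzero : ∀ f ∈ (CuspForm.intLattice N k : Set (CuspForm Γ₀(N) k)),
      (T : Module.End ℂ (CuspForm Γ₀(N) k)) f = 0 := by
    intro f hf
    have := congrArg (fun e : Module.End ℤ (CuspForm.intLattice N k) ↦
      ((e ⟨f, hf⟩ : CuspForm.intLattice N k) : CuspForm Γ₀(N) k)) hT
    simpa [restrictEnd_apply_coe] using this
  have : (T : Module.End ℂ (CuspForm Γ₀(N) k)) = 0 := by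
    apply LinearMap.ext_on_range (v := fun x : (CuspForm.intLattice N k : Set (CuspForm Γ₀(N) k)) ↦
      (x : CuspForm Γ₀(N) k))
    · rw [Subtype.range_coe_subtype]
      exact hspan
    · rintro ⟨f, hf⟩
      simpa using hzero f hf
  simpa using this

/-- If the lattice spans, the Hecke algebra is a finite `ℤ`-module. -/
theorem finite_heckeAlgebra [NeZero N] (hk : 1 ≤ k) (S : Set ℕ)
    (hspan : Submodule.span ℂ (CuspForm.intLattice N k : Set (CuspForm Γ₀(N) k)) = ⊤) :
    Module.Finite ℤ (CuspForm.heckeAlgebra N k S) := by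
  have := finite_end_intLattice N k
  exact Module.Finite.of_injective (restrictEnd N hk S).toLinearMap
    (restrictEnd_injective hk S hspan)

end Fermat.Agent.Lib.Lattice
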