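/-
Helper library (helper2): the Deligne–Serre lifting lemma for weight two cusp forms on `Gamma0 N`,
given that the integral lattice spans.
-/
import Mathlib
import Fermat.Agent.Lib.Hecke.Lattice
import Fermat.Agent.Lib.Hecke.CommEigen
import Fermat.Agent.Lib.Hecke.Eigenform

set_option autoImplicit false

open ModularFormClass UpperHalfPlane ModularForm
open scoped MatrixGroups

namespace Fermat.Agent.Lib.Lifting

open Fermat.Agent.Lib.QCoeff Fermat.Agent.Lib.Lattice Fermat.Agent.Lib.Eigenform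

variable {N : ℕ} [NeZero N]

local notation "Γ₀(" N ")" => CongruenceSubgroup.Gamma0 N

/-- The full weight two Hecke algebra. -/
abbrev TT (N : ℕ) [NeZero N] := CuspForm.heckeAlgebra N 2 (∅ : Set ℕ)

/-- Data of a mod `r` eigenvector in the integral lattice. -/
structure ModEigen (N : ℕ) [NeZero N] (r : ℤ) (f₀ : CuspForm Γ₀(N) 2) (a : ℕ → ℤ) : Prop where
  mem : f₀ ∈ CuspForm.intLattice N 2
  heckeT : ∀ (p : ℕ) (hp : p.Prime) (hpN : ¬ p ∣ N),
    CuspForm.heckeTLin 2 hp hpN f₀ - (a p) • f₀ ∈ divLattice N 2 r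
  heckeU : ∀ (p : ℕ) (_ : p.Prime) (hpN : p ∣ N),
    CuspForm.heckeULin 2 hpN f₀ - (a p) • f₀ ∈ divLattice N 2 r
  one : ∃ m : ℤ, qCoeff ⇑f₀ 1 = (m : ℂ) ∧ IsCoprime m r

variable {r : ℤ} {f₀ : CuspForm Γ₀(N) 2} {a : ℕ → ℤ}

theorem exists_int_eig (h : ModEigen N r f₀ a) :
    ∀ T : Module.End ℂ (CuspForm Γ₀(N) 2), T ∈ TT N →
      ∃ c : ℤ, T f₀ - c • f₀ ∈ divLattice N 2 r := by
  intro T hT
  induction hT using Algebra.adjoin_induction with
  | mem x hx =>
    rcases hx with ⟨ℓ, hℓ, hℓN, -, rfl⟩ | ⟨q, hqN, hq, -, rfl⟩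
    · exact ⟨a ℓ, h.heckeT ℓ hℓ hℓN⟩
    · exact ⟨a q, h.heckeU q hq hqN⟩
  | algebraMap z =>
    refine ⟨z, ?_⟩
    rw [Algebra.algebraMap_eq_smul_one, LinearMap.smul_apply, Module.End.one_apply, sub_self]
    exact Submodule.zero_mem _
  | add x y _ _ hx hy =>
    obtain ⟨c, hc⟩ := hx
    obtain ⟨d, hd⟩ := hy
    refine ⟨c + d, ?_⟩
    have : (x + y) f₀ - (c + d) • f₀ = (x f₀ - c • f₀) + (y f₀ - d • f₀) := by
      rw [LinearMap.add_apply, add_smul]
      abel
    rw [this]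
    exact Submodule.add_mem _ hc hd
  | mul x y hx _ hx' hy' =>
    obtain ⟨c, hc⟩ := hx'
    obtain ⟨d, hd⟩ := hy'
    refine ⟨c * d, ?_⟩
    have : (x * y) f₀ - (c * d) • f₀ = x (y f₀ - d • f₀) + d • (x f₀ - c • f₀) := by
      rw [Module.End.mul_apply, map_sub, map_zsmul, smul_sub, smul_smul, mul_comm d c]
      abel
    rw [this]
    exact Submodule.add_mem _ (apply_mem_divLattice (by norm_num) hx hd)
      (Submodule.smul_mem _ _ hc)

/-- `f₀` itself is not in `r L` when `r` is not a unit. -/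
theorem not_mem_divLattice (h : ModEigen N r f₀ a) (hr : ¬ IsUnit r) :
    f₀ ∉ divLattice N 2 r := by
  intro hmem
  obtain ⟨m, hm, hcop⟩ := h.one
  obtain ⟨m', hm'⟩ := hmem 1
  rw [hm] at hm'
  have : m = r * m' := by exact_mod_cast hm'
  apply hr
  have hdvd : r ∣ m := ⟨m', this⟩
  exact hcop.symm.isUnit_of_dvd' dvd_rfl hdvd

/-- The ideal of Hecke operators killing `f₀` modulo `r`. -/
def eigenIdeal (N : ℕ) [NeZero N] (r : ℤ) (f₀ : CuspForm Γ₀(N) 2) : Ideal (TT N) where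
  carrier := {T | (T : Module.End ℂ (CuspForm Γ₀(N) 2)) f₀ ∈ divLattice N 2 r}
  add_mem' {x y} hx hy := by
    simp only [Set.mem_ofPred_eq] at hx hy ⊢
    have : ((x + y : TT N) : Module.End ℂ (CuspForm Γ₀(N) 2)) f₀ =
        (x : Module.End ℂ (CuspForm Γ₀(N) 2)) f₀ + (y : Module.End ℂ (CuspForm Γ₀(N) 2)) f₀ := rfl
    rw [this]
    exact Submodule.add_mem _ hx hy
  zero_mem' := by
    simp only [Set.mem_ofPred_eq]
    have : ((0 : TT N) : Module.End ℂ (CuspForm Γ₀(N) 2)) f₀ = 0 := rfl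
    rw [this]
    exact Submodule.zero_mem _
  smul_mem' c {x} hx := by
    simp only [Set.mem_ofPred_eq] at hx ⊢
    have : ((c • x : TT N) : Module.End ℂ (CuspForm Γ₀(N) 2)) f₀ =
        (c : Module.End ℂ (CuspForm Γ₀(N) 2)) ((x : Module.End ℂ (CuspForm Γ₀(N) 2)) f₀) := rfl
    rw [this]
    exact apply_mem_divLattice (by norm_num) c.2 hx

theorem mem_eigenIdeal_iff (T : TT N) :
    T ∈ eigenIdeal N r f₀ ↔ (T : Module.End ℂ (CuspForm Γ₀(N) 2)) f₀ ∈ divLattice N 2 r :=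
  Iff.rfl

theorem sub_mem_eigenIdeal_iff (T : TT N) (c : ℤ) :
    T - algebraMap ℤ (TT N) c ∈ eigenIdeal N r f₀ ↔
      (T : Module.End ℂ (CuspForm Γ₀(N) 2)) f₀ - c • f₀ ∈ divLattice N 2 r := by
  rw [mem_eigenIdeal_iff]
  have : ((T - algebraMap ℤ (TT N) c : TT N) : Module.End ℂ (CuspForm Γ₀(N) 2)) f₀ =
      (T : Module.End ℂ (CuspForm Γ₀(N) 2)) f₀ - c • f₀ := by
    rw [Algebra.algebraMap_eq_smul_one]
    simp
  rw [this]

theorem algebraMap_mem_eigenIdeal (h : ModEigen N r f₀ a) :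
    algebraMap ℤ (TT N) r ∈ eigenIdeal N r f₀ := by
  rw [mem_eigenIdeal_iff]
  have : ((algebraMap ℤ (TT N) r : TT N) : Module.End ℂ (CuspForm Γ₀(N) 2)) f₀ = r • f₀ := by
    rw [Algebra.algebraMap_eq_smul_one]
    simp
  rw [this]
  exact smul_mem_divLattice h.mem

/-- The eigen-ideal is maximal when `r` is prime. -/
theorem eigenIdeal_isMaximal (h : ModEigen N r f₀ a) (hr : Prime r) :
    (eigenIdeal N r f₀).IsMaximal := by
  rw [Ideal.isMaximal_iff]
  refine ⟨?_, ?_⟩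
  · rw [mem_eigenIdeal_iff]
    have : ((1 : TT N) : Module.End ℂ (CuspForm Γ₀(N) 2)) f₀ = f₀ := rfl
    rw [this]
    exact not_mem_divLattice h hr.not_isUnit
  · intro J x hJ hx hxJ
    obtain ⟨c, hc⟩ := exists_int_eig h x x.2
    rw [← sub_mem_eigenIdeal_iff] at hc
    -- `r ∤ c`
    have hrc : ¬ r ∣ c := by
      rintro ⟨c', rfl⟩
      apply hx
      have h1 : algebraMap ℤ (TT N) (r * c') ∈ eigenIdeal N r f₀ := by
        rw [map_mul]
        exact Ideal.mul_mem_right _ _ (algebraMap_mem_eigenIdeal h)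
      have := Ideal.add_mem _ hc h1
      simpa using this
    have hcop : IsCoprime c r := (hr.coprime_iff_not_dvd.mpr hrc).symm
    obtain ⟨u, v, huv⟩ := hcop
    -- `1 = u * c + v * r`, and `c ≡ x`, `r ≡ 0` modulo the ideal
    have h1 : (1 : TT N) = algebraMap ℤ (TT N) u * x
        - algebraMap ℤ (TT N) u * (x - algebraMap ℤ (TT N) c)
        + algebraMap ℤ (TT N) v * algebraMap ℤ (TT N) r := by
      have : (1 : TT N) = algebraMap ℤ (TT N) (u * c + v * r) := by rw [huv, map_one]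
      rw [this, map_add, map_mul, map_mul]
      ring
    rw [h1]
    refine Ideal.add_mem _ (Ideal.sub_mem _ (Ideal.mul_mem_left _ _ hxJ) ?_) ?_
    · exact Ideal.mul_mem_left _ _ (hJ hc)
    · exact Ideal.mul_mem_left _ _ (hJ (algebraMap_mem_eigenIdeal h))

end Fermat.Agent.Lib.Lifting

namespace Fermat.Agent.Lib.Lifting

open Fermat.Agent.Lib.QCoeff Fermat.Agent.Lib.Lattice Fermat.Agent.Lib.Eigenform

variable {N : ℕ} [NeZero N]

local notation "Γ₀(" N ")" => CongruenceSubgroup.Gamma0 N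

variable {r : ℤ} {f₀ : CuspForm Γ₀(N) 2} {a : ℕ → ℤ}

/-- The eigenvalue function attached to a character of the Hecke algebra. -/
noncomputable def lamOf (N : ℕ) [NeZero N] (ψ : TT N →+* ℂ) (p : ℕ) : ℂ :=
  if hp : p.Prime then
    (if hpN : p ∣ N then ψ (CuspForm.heckeAlgebra.U hp hpN (Set.notMem_empty p))
      else ψ (CuspForm.heckeAlgebra.T hp hpN (Set.notMem_empty p)))
  else 0

/-- The Hecke operator at `p` as an element of the full Hecke algebra. -/
noncomputable def heckeAt (N : ℕ) [NeZero N] (p : ℕ) : TT N :=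
  if hp : p.Prime then
    (if hpN : p ∣ N then CuspForm.heckeAlgebra.U hp hpN (Set.notMem_empty p)
      else CuspForm.heckeAlgebra.T hp hpN (Set.notMem_empty p))
  else 0

theorem lamOf_eq (ψ : TT N →+* ℂ) (p : ℕ) : lamOf N ψ p = ψ (heckeAt N p) := by
  unfold lamOf heckeAt
  split_ifs <;> simp

theorem heckeAt_sub_mem_eigenIdeal (h : ModEigen N r f₀ a) {p : ℕ} (hp : p.Prime) :
    heckeAt N p - algebraMap ℤ (TT N) (a p) ∈ eigenIdeal N r f₀ := by
  rw [sub_mem_eigenIdeal_iff]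
  unfold heckeAt
  rw [dif_pos hp]
  by_cases hpN : p ∣ N
  · rw [dif_pos hpN]
    exact h.heckeU p hp hpN
  · rw [dif_neg hpN]
    exact h.heckeT p hp hpN

/-- **Deligne–Serre lifting lemma** for weight two cusp forms on `Gamma0 N`. -/
theorem exists_eigenform_lift
    (hspan : Submodule.span ℂ (CuspForm.intLattice N 2 : Set (CuspForm Γ₀(N) 2)) = ⊤)
    (h : ModEigen N r f₀ a) (hr : Prime r) :
    ∃ (g : CuspForm Γ₀(N) 2) (_ : g.IsNormalizedEigenform)
      (𝔪' : Ideal (integralClosure ℤ ℂ)), 𝔪'.IsMaximal ∧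
      ((r : ℤ) : integralClosure ℤ ℂ) ∈ 𝔪' ∧
      ∀ p : ℕ, p.Prime → ∃ c : integralClosure ℤ ℂ, (c : ℂ) = qCoeff ⇑g p ∧
        c - ((a p : ℤ) : integralClosure ℤ ℂ) ∈ 𝔪' := by
  have hfd : FiniteDimensional ℂ (CuspForm Γ₀(N) 2) := finiteDimensional
  have hmax := eigenIdeal_isMaximal h hr
  have hprime : (eigenIdeal N r f₀).IsPrime := hmax.isPrime
  set ρ : TT N →+* Module.End ℂ (CuspForm Γ₀(N) 2) := (TT N).val.toRingHom with hρ
  have hρker : RingHom.ker ρ ≤ eigenIdeal N r f₀ := by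
    intro x hx
    rw [RingHom.mem_ker] at hx
    have : x = 0 := Subtype.ext hx
    rw [this]
    exact Ideal.zero_mem _
  obtain ⟨ψ, v, hv0, hv, hker⟩ :=
    Fermat.Agent.Lib.CommEigen.exists_eigencharacter_ker_le ρ (eigenIdeal N r f₀) hρker
  -- the eigenvector `v` is an eigenvector for all Hecke operators at primes
  have hev : IsEigenvector v (lamOf N ψ) := by
    constructor
    · intro p hp hpN
      have := hv (CuspForm.heckeAlgebra.T hp hpN (Set.notMem_empty p))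
      simp only [lamOf, dif_pos hp, dif_neg hpN]
      exact this
    · intro p hp hpN
      have := hv (CuspForm.heckeAlgebra.U hp hpN (Set.notMem_empty p))
      simp only [lamOf, dif_pos hp, dif_pos hpN]
      exact this
  obtain ⟨g, hg, -, hgl⟩ := exists_normalized hev hv0
  -- integrality
  have hfin : Module.Finite ℤ (TT N) := finite_heckeAlgebra (by norm_num) ∅ hspan
  have hint : ∀ T : TT N, ψ T ∈ integralClosure ℤ ℂ := by
    intro T
    have hT : IsIntegral ℤ T := IsIntegral.of_finite ℤ T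
    exact hT.map ψ.toIntAlgHom
  set ψ' : TT N →+* integralClosure ℤ ℂ := ψ.codRestrict (integralClosure ℤ ℂ) hint with hψ'
  have hψ'coe : ∀ T : TT N, ((ψ' T : integralClosure ℤ ℂ) : ℂ) = ψ T := fun T ↦ rfl
  let _ : Algebra (TT N) (integralClosure ℤ ℂ) := ψ'.toAlgebra
  have halg : ∀ T : TT N, algebraMap (TT N) (integralClosure ℤ ℂ) T = ψ' T := fun T ↦ rfl
  have hII : Algebra.IsIntegral (TT N) (integralClosure ℤ ℂ) := by
    refine ⟨fun x ↦ ?_⟩
    have hx : IsIntegral ℤ x := integralClosure.isIntegral x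
    exact hx.tower_top
  have hker' : RingHom.ker (algebraMap (TT N) (integralClosure ℤ ℂ)) ≤ eigenIdeal N r f₀ := by
    intro x hx
    apply hker
    rw [RingHom.mem_ker] at hx ⊢
    rw [halg] at hx
    rw [← hψ'coe, hx]
    rfl
  obtain ⟨Q, hQmax, hQ⟩ := Ideal.exists_ideal_over_maximal_of_isIntegral
    (S := integralClosure ℤ ℂ) (eigenIdeal N r f₀) hker'
  have hmemQ : ∀ T : TT N, T ∈ eigenIdeal N r f₀ → ψ' T ∈ Q := by
    intro T hT
    rw [← hQ] at hT
    exact hT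
  refine ⟨g, hg, Q, hQmax, ?_, ?_⟩
  · have := hmemQ _ (algebraMap_mem_eigenIdeal h)
    rwa [eq_intCast, map_intCast] at this
  · intro p hp
    refine ⟨ψ' (heckeAt N p), ?_, ?_⟩
    · rw [hψ'coe, ← lamOf_eq, hgl p hp]
    · have := hmemQ _ (heckeAt_sub_mem_eigenIdeal h hp)
      rwa [map_sub, eq_intCast, map_intCast] at this

end Fermat.Agent.Lib.Lifting
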